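import Fermat.Agent.MW.Valued.Zeros

/-!
# Determinants of values are divisible by the product of the distances
-/

set_option autoImplicit false

noncomputable section

open TensorProduct IsLocalRing

namespace FA.MW

variable {L A : Type} [Field L] [CommRing A] [Algebra L A]
variable {O : Type} [CommRing O] [IsDomain O] [Algebra L O] [IsLocalRing O]
variable [IsAlgClosed L] [CharZero L] [IsDomain A] {ι : Type} [Fintype ι] {u : ι → A}

open scoped Classical in
/-- The distance of two points as used in a disc. -/
def AffCurve.sep (h : AffCurve L A u) (P Q : A →ₐ[L] O) : O :=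
  if redPt P = redPt Q then Q (h.tOf (redPt Q)) - P (h.tOf (redPt Q)) else 1

theorem AffCurve.gen_sep (h : AffCurve L A u) (P Q : A →ₐ[L] O) :
    Gen O (fun i => Q (u i) - P (u i)) (h.sep P Q) := by
  unfold AffCurve.sep
  split_ifs with hpq
  · exact h.gen_tOf hpq
  · exact gen_one_of_ne h.gen hpq

/-- Every determinant of values of functions, allowed to depend on the disc, is divisible by the
product of the distances of the points. -/
theorem AffCurve.sep_dvd_det (h : AffCurve L A u) : ∀ (n : ℕ) (P : Fin n → (A →ₐ[L] O))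
    (Φ : (A →ₐ[L] ResidueField O) → Fin n → O ⊗[L] A),
    (∏ i, ∏ j ∈ Finset.univ.filter (fun j => i < j), h.sep (P i) (P j)) ∣
      (Matrix.of fun i a => evT (P i) (Φ (redPt (P i)) a)).det := by
  classical
  intro n
  induction n with
  | zero => intro P Φ; simp
  | succ n ih =>
    intro P Φ
    set φ₀ := redPt (P 0)
    set t := h.tOf φ₀
    have hdiv : ∀ a, ∃ S C, evR φ₀ S ≠ 0 ∧
        S * (Φ φ₀ a - evT (P 0) (Φ φ₀ a) ⊗ₜ 1) = del (P 0) t * C :=
      fun a => h.mem_div rfl (by simp)
    choose S C hS hid using hdiv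
    set Spi : O ⊗[L] A := ∏ a, S a
    set C' : Fin (n + 1) → O ⊗[L] A := fun a => (∏ b ∈ Finset.univ.erase a, S b) * C a
    have hid' : ∀ a, Spi * (Φ φ₀ a - evT (P 0) (Φ φ₀ a) ⊗ₜ 1) = del (P 0) t * C' a := fun a => by
      simp only [Spi, C']
      rw [← Finset.mul_prod_erase _ _ (Finset.mem_univ a), mul_comm (S a), mul_assoc, hid]
      ring
    set Φ' : (A →ₐ[L] ResidueField O) → Fin (n + 1) → O ⊗[L] A :=
      fun φ => if φ = φ₀ then C' else Φ φ
    -- subtract the first row in its disc
    set M : Matrix (Fin (n + 1)) (Fin (n + 1)) O :=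
      Matrix.of fun i a => evT (P i) (Φ (redPt (P i)) a)
    set v : Fin (n + 1) → O := fun i =>
      if i = 0 then 1 else if redPt (P i) = φ₀ then evT (P i) Spi else 1
    set w : Fin (n + 1) → O := fun i => if i = 0 then 1 else h.sep (P 0) (P i)
    set N : Matrix (Fin (n + 1)) (Fin (n + 1)) O := Matrix.of fun i a =>
      if i = 0 then evT (P 0) (Φ φ₀ a) else evT (P i) (Φ' (redPt (P i)) a)
    set M' : Matrix (Fin (n + 1)) (Fin (n + 1)) O := Matrix.of fun i a =>
      M i a - (if i ≠ 0 ∧ redPt (P i) = φ₀ then 1 else 0) * M 0 a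
    have hdet : M'.det = M.det :=
      Matrix.det_eq_of_forall_row_eq_smul_add_const
        (fun i => -(if i ≠ 0 ∧ redPt (P i) = φ₀ then (1 : O) else 0)) 0 (by simp) fun i a => by
          simp only [M', Matrix.of_apply]; ring
    have hrow : ∀ i a, v i * M' i a = w i * N i a := by
      intro i a
      by_cases hi : i = 0
      · subst hi; simp [M', v, w, N, M, φ₀]
      · by_cases hr : redPt (P i) = φ₀
        · have h1 := congrArg (evT (P i)) (hid' a)
          simp only [map_mul, map_sub, evT_tmul, map_one, mul_one, evT_del] at h1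
          have hw : w i = P i t - P 0 t := by
            simp only [w, if_neg hi, AffCurve.sep]
            rw [if_pos hr.symm, hr]
          simp only [M', N, v, M, Φ', Matrix.of_apply, if_neg hi, if_pos hr, hw]
          rw [if_pos ⟨hi, hr⟩, one_mul, hr]
          simpa [φ₀] using h1
        · have hw : w i = 1 := by
            simp only [w, if_neg hi, AffCurve.sep]
            rw [if_neg (Ne.symm hr)]
          simp only [M', N, v, M, Φ', Matrix.of_apply, if_neg hi, if_neg hr, hw]
          simp [hr]
    have hdet' : (∏ i, v i) * M.det = (∏ i, w i) * N.det := by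
      rw [← hdet, ← Matrix.det_mul_column, ← Matrix.det_mul_column]
      exact congrArg Matrix.det (Matrix.ext hrow)
    have hv : IsUnit (∏ i, v i) := by
      refine IsUnit.prod_iff.2 fun i _ => ?_
      simp only [v]
      split_ifs with hi hr
      · exact isUnit_one
      · refine isUnit_evT hr ?_
        simp [Spi, Finset.prod_eq_zero_iff, hS]
      · exact isUnit_one
    have hN : (∏ i : Fin n, ∏ j ∈ Finset.univ.filter (fun j => i < j),
        h.sep (P i.succ) (P j.succ)) ∣ N.det := by
      rw [Matrix.det_succ_row_zero]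
      refine Finset.dvd_sum fun a _ => dvd_mul_of_dvd_right ?_ _
      refine (ih (fun i => P i.succ) (fun φ b => Φ' φ (a.succAbove b))).trans
        (dvd_of_eq (congrArg Matrix.det ?_))
      ext i b
      simp [N, Fin.succ_ne_zero]
    have hsplit : (∏ i, ∏ j ∈ Finset.univ.filter (fun j => i < j), h.sep (P i) (P j)) =
        (∏ i, w i) * ∏ i : Fin n, ∏ j ∈ Finset.univ.filter (fun j => i < j),
          h.sep (P i.succ) (P j.succ) := by
      simp only [Finset.prod_filter, Fin.prod_univ_succ, w, Fin.succ_ne_zero, if_true, if_false,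
        one_mul, Fin.succ_pos, lt_irrefl, Fin.succ_lt_succ_iff, Fin.not_lt_zero]
    rw [hsplit, ← hv.dvd_mul_left, hdet']
    exact mul_dvd_mul_left _ hN

end FA.MW

end
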