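import Fermat.Agent.MW.Valued.Zeros

/-!
# Values of a fixed family of functions, and products of saturated functions
-/

set_option autoImplicit false

noncomputable section

open TensorProduct IsLocalRing

namespace FA.MW

variable {L A : Type} [Field L] [CommRing A] [Algebra L A] [IsAlgClosed L] [IsDomain A]
variable {O : Type} [CommRing O] [IsDomain O] [Algebra L O] [IsLocalRing O]
variable {ι μ τ : Type} [Fintype ι] [Fintype τ] {u : ι → A}

/-- The values of a fixed family: common zeros only at the points `v r`, to order `e r`. -/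
theorem AffCurve.gen_family [CharZero L] (h : AffCurve L A u) (N : μ → A) (v : τ → (A →ₐ[L] L))
    (hv : Function.Injective v) (e : τ → ℕ)
    (hzero : ∀ r, ∃ (t : A) (c s : μ → A), v r t = 0 ∧
      (∀ i, ∃ c' s' : A, v r s' ≠ 0 ∧ s' * (u i - algebraMap L A (v r (u i))) = t * c') ∧
      (∀ m, v r (s m) ≠ 0 ∧ s m * N m = t ^ e r * c m) ∧ ∃ m, v r (c m) ≠ 0)
    (hoff : ∀ w : A →ₐ[L] L, (∀ r, w ≠ v r) → ∃ m, w (N m) ≠ 0)
    (hne : ∃ m, N m ≠ 0)
    (P : A →ₐ[L] O) (δ : τ → O)
    (hδ : ∀ r, Gen O (fun i => P (u i) - algebraMap L O (v r (u i))) (δ r)) :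
    Gen O (fun m => P (N m)) (∏ r, δ r ^ e r) := by
  classical
  set V : τ → (A →ₐ[L] O) := fun r => (Algebra.ofId L O).comp (v r) with hV
  have hδ' : ∀ r, Gen O (fun i => P (u i) - V r (u i)) (δ r) := fun r => hδ r
  have hinj : ∀ r r', redPt (V r) = redPt (V r') → r = r' := fun r r' he => hv (AlgHom.ext fun a => by
    have := AlgHom.congr_fun he a
    simp only [redPt_apply, V, AlgHom.comp_apply, Algebra.ofId_apply] at this
    exact (algebraMap L (ResidueField O)).injective this)
  by_cases hex : ∃ r, redPt (V r) = redPt P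
  · obtain ⟨r, hr⟩ := hex
    obtain ⟨t, c, s, hvt, hu', hs, m₀, hm₀⟩ := hzero r
    have hval : ∀ a, residue O (P a) = algebraMap L (ResidueField O) (v r a) := fun a => by
      rw [← redPt_apply, ← hr]; rfl
    have hunit : ∀ a, v r a ≠ 0 → IsUnit (P a) := fun a ha => by
      by_contra hu0
      have h0 := (residue_eq_zero_iff _).2 ((mem_maximalIdeal _).2 hu0)
      rw [hval, _root_.map_eq_zero] at h0
      exact ha h0
    have hgt : Gen O (fun i => P (u i) - V r (u i)) (P t) := by
      refine ⟨fun i => ?_, ?_⟩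
      · obtain ⟨c', s', hs', hid⟩ := hu' i
        obtain ⟨a, ha⟩ := hunit s' hs'
        refine ⟨((a⁻¹ : Oˣ) : O) * P c', ?_⟩
        have h1 := congrArg P hid
        simp only [map_mul, map_sub, AlgHom.commutes, ← ha] at h1
        show P (u i) - algebraMap L O (v r (u i)) = _
        rw [smul_eq_mul]
        calc _ = ((a⁻¹ : Oˣ) : O) * ((a : O) * (P (u i) - algebraMap L O (v r (u i)))) := by
              rw [← mul_assoc, Units.inv_mul, one_mul]
          _ = _ := by rw [h1]; ring
      · have := sub_mem_span_gen h.gen (V r) P t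
        simpa [V, hvt] using this
    have hothers : ∀ r', r' ≠ r → ∃ a : Oˣ, δ r' = (a : O) := fun r' hr' => by
      obtain ⟨a, ha⟩ := (hδ' r').exists_unit
        (gen_one_of_ne h.gen (P := V r') (Q := P) fun he => hr' (hinj _ _ (he.trans hr.symm)))
      exact ⟨a, by simpa using ha⟩
    choose! b hb using hothers
    obtain ⟨a, ha⟩ := (hδ' r).exists_unit hgt
    have hprod : ∏ r', δ r' ^ e r' =
        ((a ^ e r * ∏ r' ∈ Finset.univ.erase r, b r' ^ e r' : Oˣ) : O) * P t ^ e r := by
      rw [← Finset.mul_prod_erase _ _ (Finset.mem_univ r), ha,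
        Finset.prod_congr rfl fun r' hr' => by rw [hb r' (Finset.ne_of_mem_erase hr')]]
      push_cast
      rw [smul_eq_mul, mul_pow]
      ring
    rw [hprod]
    set ε := a ^ e r * ∏ r' ∈ Finset.univ.erase r, b r' ^ e r'
    refine ⟨fun m => ?_, ?_⟩
    · obtain ⟨sm, hsm⟩ := hunit _ (hs m).1
      refine ⟨((sm⁻¹ * ε⁻¹ : Oˣ) : O) * P (c m), ?_⟩
      have h1 := congrArg P (hs m).2
      rw [map_mul, map_mul, map_pow, ← hsm] at h1
      rw [smul_eq_mul, Units.val_mul]
      calc P (N m) = ((sm⁻¹ : Oˣ) : O) * ((sm : O) * P (N m)) := by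
            rw [← mul_assoc, Units.inv_mul, one_mul]
        _ = _ := by
            rw [h1]
            linear_combination -(((sm⁻¹ : Oˣ) : O) * P t ^ e r * P (c m)) * ε.inv_mul
    · obtain ⟨cm, hcm⟩ := hunit _ hm₀
      have h1 := congrArg P (hs m₀).2
      rw [map_mul, map_mul, map_pow, ← hcm] at h1
      have h2 : (ε : O) * P t ^ e r = ((ε : O) * ((cm⁻¹ : Oˣ) : O) * P (s m₀)) • P (N m₀) := by
        rw [smul_eq_mul]
        linear_combination -((ε : O) * ((cm⁻¹ : Oˣ) : O)) * h1 -
          (ε : O) * P t ^ e r * cm.inv_mul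
      rw [h2]
      exact Submodule.smul_mem _ _ (Submodule.subset_span ⟨m₀, rfl⟩)
  · push Not at hex
    obtain ⟨m, hm⟩ : ∃ m, IsUnit (P (N m)) := by
      by_cases hφ : Function.Injective (redPt P)
      · obtain ⟨m, hm⟩ := hne
        refine ⟨m, ?_⟩
        by_contra hu0
        have h0 := (residue_eq_zero_iff _).2 ((mem_maximalIdeal _).2 hu0)
        exact hm (hφ (by simpa using h0))
      · obtain ⟨w, hw⟩ := h.exists_const_of_not_injective (redPt P) hφ
        obtain ⟨m, hm⟩ := hoff w fun r hr => hex r (by subst hr; rw [hw]; rfl)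
        refine ⟨m, ?_⟩
        by_contra hu0
        have h0 : redPt P (N m) = 0 := (residue_eq_zero_iff _).2 ((mem_maximalIdeal _).2 hu0)
        rw [hw] at h0
        exact hm ((_root_.map_eq_zero (algebraMap L (ResidueField O))).1 h0)
    have hothers : ∀ r, ∃ a : Oˣ, δ r = (a : O) := fun r => by
      obtain ⟨a, ha⟩ := (hδ' r).exists_unit (gen_one_of_ne h.gen (hex r))
      exact ⟨a, by simpa using ha⟩
    choose b hb using hothers
    obtain ⟨um, hum⟩ := hm
    have hprod : ∏ r, δ r ^ e r = ((∏ r, b r ^ e r : Oˣ) : O) := by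
      simp [hb]
    rw [hprod]
    set ε := ∏ r, b r ^ e r
    refine ⟨fun m' => ⟨P (N m') * ((ε⁻¹ : Oˣ) : O), by
      rw [smul_eq_mul, mul_assoc, Units.inv_mul, mul_one]⟩, ?_⟩
    have h2 : (ε : O) = ((ε : O) * ((um⁻¹ : Oˣ) : O)) • P (N m) := by
      rw [smul_eq_mul, ← hum, mul_assoc, Units.inv_mul, mul_one]
    rw [h2]
    exact Submodule.smul_mem _ _ (Submodule.subset_span ⟨m, rfl⟩)

omit [IsDomain A] [IsDomain O] in
/-- A bilinear map over `L` without zero divisors keeps saturated vectors saturated. -/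
theorem exists_isUnit_bilin {κ κ' : Type} [Fintype κ] [Fintype κ'] (str : κ → κ' → μ → L)
    (hstr : ∀ (c : κ → L) (c' : κ' → L), c ≠ 0 → c' ≠ 0 →
      ∃ m, ∑ l, ∑ l', c l * c' l' * str l l' m ≠ 0)
    (c : κ → O) (hc : ∃ l, IsUnit (c l)) (c' : κ' → O) (hc' : ∃ l, IsUnit (c' l)) :
    ∃ m, IsUnit (∑ l, ∑ l', c l * c' l' * algebraMap L O (str l l' m)) := by
  classical
  by_contra hno
  push Not at hno
  obtain ⟨l₀, hl₀⟩ := hc
  obtain ⟨l₁, hl₁⟩ := hc'
  obtain ⟨R, hwR, ψ, hψ⟩ := exists_specialisation (L := L)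
    (Finset.univ.image (fun l => residue O (c l)) ∪ Finset.univ.image fun l => residue O (c' l))
  have hcR : ∀ l, residue O (c l) ∈ R := fun l => hwR (by simp)
  have hcR' : ∀ l, residue O (c' l) ∈ R := fun l => hwR (by simp)
  obtain ⟨m, hm⟩ := hstr (fun l => ψ ⟨_, hcR l⟩) (fun l => ψ ⟨_, hcR' l⟩)
    (fun h0 => hψ _ (by simp) (hcR l₀) (hl₀.map (residue O)).ne_zero (congrFun h0 l₀))
    (fun h0 => hψ _ (by simp) (hcR' l₁) (hl₁.map (residue O)).ne_zero (congrFun h0 l₁))
  refine hm ?_
  have h0 := (residue_eq_zero_iff _).2 ((mem_maximalIdeal _).2 (hno m))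
  simp only [map_sum, map_mul] at h0
  have hsum : (∑ l, ∑ l', (⟨_, hcR l⟩ : R) * ⟨_, hcR' l'⟩ * algebraMap L R (str l l' m)) = 0 := by
    refine Subtype.ext ?_
    push_cast
    simpa [IsScalarTower.algebraMap_apply L O (ResidueField O)] using h0
  have h1 := congrArg ψ hsum
  simp only [map_sum, map_mul, map_zero, AlgHom.commutes, Algebra.algebraMap_self,
    RingHom.id_apply] at h1
  exact h1

end FA.MW

end
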