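import Mathlib

/-!
# Affine curves and points with values in a local ring

`AffCurve L A u` records what is used about an affine piece `A = L[u]` of a smooth curve over an
algebraically closed field `L`.  For a local `L`-algebra `O` the algebra `O ⊗ A` is evaluated at
the `O`-valued points `P : A → O`, and reduced at the residual points `φ : A → k`.
-/

set_option autoImplicit false

noncomputable section

open Polynomial TensorProduct IsLocalRing

namespace FA.MW

/-- An affine piece, generated by the `u i`, of a smooth curve over an algebraically closed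
field. -/
structure AffCurve (L A : Type) {ι : Type} [Field L] [CommRing A] [Algebra L A] (u : ι → A) :
    Prop where
  gen : Algebra.adjoin L (Set.range u) = ⊤
  alg : ∀ t a : A, Transcendental L t →
    ∃ p : L[X][X], p ≠ 0 ∧ (p.map (aeval t : L[X] →ₐ[L] A).toRingHom).eval a = 0
  unif : ∀ v : A →ₐ[L] L, ∃ t : A, v t = 0 ∧
    ∀ i, ∃ c s : A, v s ≠ 0 ∧ s * (u i - algebraMap L A (v (u i))) = t * c

/-- `d` generates the submodule spanned by the `x i`. -/
def Gen (O : Type) {M ι : Type} [CommRing O] [AddCommGroup M] [Module O M] (x : ι → M) (d : M) :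
    Prop :=
  (∀ i, ∃ c : O, x i = c • d) ∧ d ∈ Submodule.span O (Set.range x)

variable {L A : Type} [Field L] [CommRing A] [Algebra L A]
variable {O : Type} [CommRing O] [Algebra L O]

variable (L O) in
/-- Functions with coefficients in `O`. -/
abbrev Fun (A : Type) [CommRing A] [Algebra L A] : Type := O ⊗[L] A

/-- Evaluation at an `O`-valued point. -/
def evT (P : A →ₐ[L] O) : O ⊗[L] A →ₐ[O] O :=
  Algebra.TensorProduct.lift (AlgHom.id O O) P fun _ _ => Commute.all _ _

@[simp]
theorem evT_tmul (P : A →ₐ[L] O) (c : O) (a : A) : evT P (c ⊗ₜ a) = c * P a := by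
  simp [evT]

/-- The element `1 ⊗ a - P a ⊗ 1`. -/
def del (P : A →ₐ[L] O) (a : A) : O ⊗[L] A := 1 ⊗ₜ a - P a ⊗ₜ 1

@[simp]
theorem evT_del (P Q : A →ₐ[L] O) (a : A) : evT Q (del P a) = Q a - P a := by
  simp [del]

theorem del_mul (P : A →ₐ[L] O) (a b : A) :
    del P (a * b) = del P a * (1 ⊗ₜ b) + (P a ⊗ₜ 1) * del P b := by
  simp only [del, mul_sub, sub_mul, Algebra.TensorProduct.tmul_mul_tmul, map_mul, one_mul, mul_one]
  abel

theorem del_add (P : A →ₐ[L] O) (a b : A) : del P (a + b) = del P a + del P b := by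
  simp only [del, map_add, tmul_add, add_tmul]
  abel

@[simp]
theorem del_algebraMap (P : A →ₐ[L] O) (c : L) : del P (algebraMap L A c) = 0 := by
  rw [del, AlgHom.commutes, Algebra.algebraMap_eq_smul_one, Algebra.algebraMap_eq_smul_one,
    tmul_smul, smul_tmul', sub_self]

/-- Every function is its value plus a combination of the differences `del P a`. -/
theorem eq_value_add (P : A →ₐ[L] O) (G : O ⊗[L] A) :
    ∃ (n : ℕ) (c : Fin n → O) (a : Fin n → A),
      G = evT P G ⊗ₜ 1 + ∑ j, (c j ⊗ₜ 1) * del P (a j) := by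
  induction G using TensorProduct.induction_on with
  | zero => exact ⟨0, Fin.elim0, Fin.elim0, by simp⟩
  | tmul c a =>
    refine ⟨1, fun _ => c, fun _ => a, ?_⟩
    simp only [evT_tmul, Fin.sum_univ_one, del, mul_sub, Algebra.TensorProduct.tmul_mul_tmul,
      mul_one, one_mul]
    abel
  | add x y hx hy =>
    obtain ⟨n, c, a, hx⟩ := hx
    obtain ⟨m, c', a', hy⟩ := hy
    refine ⟨n + m, Fin.append c c', Fin.append a a', ?_⟩
    rw [Fin.sum_univ_add, map_add, add_tmul]
    simp only [Fin.append_left, Fin.append_right]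
    conv_lhs => rw [hx, hy]
    abel

/-- The differences of all elements lie in an ideal as soon as those of the generators do. -/
theorem del_mem_of_gen {ι : Type} {u : ι → A} (hu : Algebra.adjoin L (Set.range u) = ⊤)
    (P : A →ₐ[L] O) (I : Ideal (O ⊗[L] A)) (h : ∀ i, del P (u i) ∈ I) (a : A) : del P a ∈ I := by
  have ha : a ∈ Algebra.adjoin L (Set.range u) := hu ▸ Algebra.mem_top
  induction ha using Algebra.adjoin_induction with
  | mem x hx => obtain ⟨i, rfl⟩ := hx; exact h i
  | algebraMap c => simp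
  | add x y _ _ hx hy => rw [del_add]; exact I.add_mem hx hy
  | mul x y _ _ hx hy => rw [del_mul]; exact I.add_mem (I.mul_mem_right _ hx) (I.mul_mem_left _ hy)

/-- Points agreeing on generators are equal. -/
theorem algHom_ext_gen {ι : Type} {u : ι → A} (hu : Algebra.adjoin L (Set.range u) = ⊤)
    {R : Type*} [Semiring R] [Algebra L R] {P Q : A →ₐ[L] R} (h : ∀ i, P (u i) = Q (u i)) :
    P = Q :=
  AlgHom.ext_of_adjoin_eq_top hu fun x hx => by obtain ⟨i, rfl⟩ := hx; exact h i

/-- Differences of values are combinations of those of the generators. -/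
theorem sub_mem_span_gen {ι : Type} {u : ι → A} (hu : Algebra.adjoin L (Set.range u) = ⊤)
    (P Q : A →ₐ[L] O) (a : A) :
    Q a - P a ∈ Submodule.span O (Set.range fun i => Q (u i) - P (u i)) := by
  have h : del P a ∈ Ideal.comap (evT Q).toRingHom
      (Submodule.span O (Set.range fun i => Q (u i) - P (u i))) :=
    del_mem_of_gen hu P _ (fun i => by
      show evT Q (del P (u i)) ∈ Submodule.span O (Set.range fun i => Q (u i) - P (u i))
      rw [evT_del]
      exact Submodule.subset_span ⟨i, rfl⟩) a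
  simpa using h

section local_ring

variable [IsLocalRing O]

/-- The residual point of an `O`-valued point. -/
def redPt (P : A →ₐ[L] O) : A →ₐ[L] ResidueField O :=
  (IsScalarTower.toAlgHom L O (ResidueField O)).comp P

@[simp]
theorem redPt_apply (P : A →ₐ[L] O) (a : A) : redPt P a = residue O (P a) := rfl

/-- The value of a function at a residual point. -/
def evR (φ : A →ₐ[L] ResidueField O) : O ⊗[L] A →ₐ[O] ResidueField O :=
  Algebra.TensorProduct.lift (Algebra.ofId O (ResidueField O)) φ fun _ _ => Commute.all _ _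

@[simp]
theorem evR_tmul (φ : A →ₐ[L] ResidueField O) (c : O) (a : A) :
    evR φ (c ⊗ₜ a) = residue O c * φ a := by
  simp [evR]

theorem residue_evT {P : A →ₐ[L] O} {φ : A →ₐ[L] ResidueField O} (h : redPt P = φ)
    (G : O ⊗[L] A) : residue O (evT P G) = evR φ G := by
  induction G using TensorProduct.induction_on with
  | zero => simp
  | tmul c a => simp [← h]
  | add x y hx hy => simp [hx, hy]

theorem isUnit_evT {P : A →ₐ[L] O} {φ : A →ₐ[L] ResidueField O} (h : redPt P = φ)
    {G : O ⊗[L] A} (hG : evR φ G ≠ 0) : IsUnit (evT P G) := by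
  rw [← residue_evT h] at hG
  by_contra hu
  exact hG ((residue_eq_zero_iff _).2 ((mem_maximalIdeal _).2 hu))

theorem exists_ne_residue {ι : Type} {u : ι → A} (hu : Algebra.adjoin L (Set.range u) = ⊤)
    {P Q : A →ₐ[L] O} (h : redPt P ≠ redPt Q) : ∃ i, IsUnit (Q (u i) - P (u i)) := by
  by_contra hno
  push Not at hno
  refine h (algHom_ext_gen hu fun i => ?_)
  have := (residue_eq_zero_iff _).2 ((mem_maximalIdeal _).2 (hno i))
  rw [map_sub, sub_eq_zero] at this
  exact this.symm

/-- The difference of points in different discs is a unit. -/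
theorem gen_one_of_ne {ι : Type} {u : ι → A} (hu : Algebra.adjoin L (Set.range u) = ⊤)
    {P Q : A →ₐ[L] O} (h : redPt P ≠ redPt Q) :
    Gen O (fun i => Q (u i) - P (u i)) (1 : O) := by
  refine ⟨fun i => ⟨Q (u i) - P (u i), by simp⟩, ?_⟩
  obtain ⟨i, hi⟩ := exists_ne_residue hu h
  obtain ⟨c, hc⟩ := hi
  have h1 : (1 : O) = ((c⁻¹ : Oˣ) : O) • (Q (u i) - P (u i)) := by
    rw [← hc, smul_eq_mul, Units.inv_mul]
  rw [h1]
  exact Submodule.smul_mem _ _ (Submodule.subset_span ⟨i, rfl⟩)

/-- The functions divisible near `φ` by `del P t`. -/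
def divIdeal (φ : A →ₐ[L] ResidueField O) (t : A) (P : A →ₐ[L] O) : Ideal (O ⊗[L] A) where
  carrier := {G | ∃ S C, evR φ S ≠ 0 ∧ S * G = del P t * C}
  add_mem' := by
    rintro G H ⟨S, C, hS, hC⟩ ⟨S', C', hS', hC'⟩
    refine ⟨S * S', S' * C + S * C', by simp [hS, hS'], ?_⟩
    rw [mul_add, mul_add, mul_assoc S S' H, hC', mul_comm S S', mul_assoc, hC]
    ring
  zero_mem' := ⟨1, 0, by simp, by simp⟩
  smul_mem' := by
    rintro R G ⟨S, C, hS, hC⟩
    refine ⟨S, R * C, hS, ?_⟩
    rw [smul_eq_mul, mul_left_comm, hC]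
    ring

theorem mem_divIdeal {φ : A →ₐ[L] ResidueField O} {t : A} {P : A →ₐ[L] O} {G : O ⊗[L] A} :
    G ∈ divIdeal φ t P ↔ ∃ S C, evR φ S ≠ 0 ∧ S * G = del P t * C := Iff.rfl

end local_ring

end FA.MW

end
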