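import Mathlib

/-!
# Specialisation of finitely many data to an algebraically closed base field
-/

set_option autoImplicit false

noncomputable section

open TensorProduct

namespace FA.MW

variable {L k : Type} [Field L] [Field k] [Algebra L k]

/-- Every element of `k ⊗ A` comes from any large enough finitely generated subalgebra. -/
theorem exists_finset_range_map {A : Type} [CommRing A] [Algebra L A] (z : k ⊗[L] A) :
    ∃ s : Finset k, ∀ R : Subalgebra L k, (↑s : Set k) ⊆ R →
      z ∈ (Algebra.TensorProduct.map R.val (AlgHom.id L A)).range := by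
  classical
  induction z using TensorProduct.induction_on with
  | zero => exact ⟨∅, fun R _ => zero_mem _⟩
  | tmul c a =>
    exact ⟨{c}, fun R hR => ⟨(⟨c, hR (by simp)⟩ : R) ⊗ₜ a, by simp⟩⟩
  | add x y hx hy =>
    obtain ⟨s, hs⟩ := hx
    obtain ⟨s', hs'⟩ := hy
    exact ⟨s ∪ s', fun R hR => add_mem
      (hs R ((Finset.coe_subset.2 Finset.subset_union_left).trans hR))
      (hs' R ((Finset.coe_subset.2 Finset.subset_union_right).trans hR))⟩

theorem injective_map_val {A : Type} [CommRing A] [Algebra L A] (R : Subalgebra L k) :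
    Function.Injective (Algebra.TensorProduct.map R.val (AlgHom.id L A)) :=
  Module.Flat.rTensor_preserves_injective_linearMap R.val.toLinearMap Subtype.val_injective

/-- **Specialisation.** Finitely many elements of an extension field satisfying any relations with
coefficients in `L` specialise to `L`, the specified nonzero ones staying nonzero. -/
theorem exists_specialisation [IsAlgClosed L] (s : Finset k) :
    ∃ R : Subalgebra L k, (↑s : Set k) ⊆ R ∧
      ∃ ψ : R →ₐ[L] L, ∀ (x : k) (hx : x ∈ s) (h : x ∈ R), x ≠ 0 → ψ ⟨x, h⟩ ≠ 0 := by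
  classical
  set T : Finset k := s ∪ s.image (fun x => x⁻¹)
  set R := Algebra.adjoin L (↑T : Set k)
  haveI : Algebra.FiniteType L R :=
    (Subalgebra.fg_iff_finiteType R).1 ⟨T, rfl⟩
  obtain ⟨m, hm⟩ := Ideal.exists_maximal R
  letI := Ideal.Quotient.field m
  haveI : Algebra.FiniteType L (R ⧸ m) :=
    Algebra.FiniteType.of_surjective (Ideal.Quotient.mkₐ L m) (Ideal.Quotient.mkₐ_surjective L m)
  haveI := finite_of_finite_type_of_isJacobsonRing L (R ⧸ m)
  let e : L ≃ₐ[L] R ⧸ m :=
    AlgEquiv.ofBijective (Algebra.ofId L (R ⧸ m)) IsAlgClosed.algebraMap_bijective_of_isIntegral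
  refine ⟨R, fun x hx => Algebra.subset_adjoin (Finset.mem_union_left _ hx),
    e.symm.toAlgHom.comp (Ideal.Quotient.mkₐ L m), fun x hx h hx0 => ?_⟩
  have hinv : x⁻¹ ∈ R :=
    Algebra.subset_adjoin (Finset.mem_union_right _ (Finset.mem_image_of_mem _ hx))
  have hu : IsUnit (⟨x, h⟩ : R) :=
    IsUnit.of_mul_eq_one (⟨x⁻¹, hinv⟩ : R) (Subtype.ext (mul_inv_cancel₀ hx0))
  exact (hu.map _).ne_zero

end FA.MW

end
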