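import Fermat.Agent.MW.Valued.Basic
import Fermat.Agent.MW.Valued.Spec

/-!
# The bound on the number of zeros after extension of the constants
-/

set_option autoImplicit false

noncomputable section

open TensorProduct IsLocalRing

namespace FA.MW

variable {L A : Type} [Field L] [CommRing A] [Algebra L A]

/-- No nonzero combination of the `G l` vanishes at algebraic points to total order more
than `d`. -/
def ZeroBound (L : Type) {A κ : Type} [Field L] [CommRing A] [Algebra L A] [Fintype κ]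
    (G : κ → A) (d : ℕ) : Prop :=
  ∀ c : κ → L, c ≠ 0 → ∀ (τ : Type) [Fintype τ] (v : τ → (A →ₐ[L] L)), Function.Injective v →
    ∀ e : τ → ℕ,
      (∀ i, ∃ t s c' : A, v i t = 0 ∧ v i s ≠ 0 ∧ s * ∑ l, c l • G l = t ^ e i * c') →
        ∑ i, e i ≤ d

variable {k : Type} [Field k] [Algebra L k]

/-- Evaluation of functions with coefficients in `k`. -/
def evK (φ : A →ₐ[L] k) : k ⊗[L] A →ₐ[k] k :=
  Algebra.TensorProduct.lift (AlgHom.id k k) φ fun _ _ => Commute.all _ _

@[simp]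
theorem evK_tmul (φ : A →ₐ[L] k) (c : k) (a : A) : evK φ (c ⊗ₜ a) = c * φ a := by simp [evK]

theorem ZeroBound.sum_le {ι κ : Type} [Fintype ι] [Fintype κ] {u : ι → A} [IsAlgClosed L]
    (hu : Algebra.adjoin L (Set.range u) = ⊤) {G : κ → A} {d : ℕ} (hG : ZeroBound L G d)
    {τ : Type} [Fintype τ] (φ : τ → (A →ₐ[L] k)) (hφ : Function.Injective φ) (c : κ → k)
    (hc : c ≠ 0) (e : τ → ℕ)
    (h : ∀ i, ∃ (t : A) (S C : k ⊗[L] A), evK (φ i) S ≠ 0 ∧
      S * ∑ l, c l ⊗ₜ G l = (1 ⊗ₜ t - φ i t ⊗ₜ 1) ^ e i * C) :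
    ∑ i, e i ≤ d := by
  classical
  choose t S C hS hid using h
  obtain ⟨l₀, hl₀⟩ := Function.ne_iff.1 hc
  choose sS hsS using fun i => exists_finset_range_map (S i)
  choose sC hsC using fun i => exists_finset_range_map (C i)
  set w : Finset k := ((Finset.univ.image c ∪
      (Finset.univ : Finset (τ × ι)).image (fun q => φ q.1 (u q.2))) ∪
    (Finset.univ.biUnion sS ∪ Finset.univ.biUnion sC)) ∪
    ((Finset.univ : Finset ((τ × τ) × ι)).image (fun q => φ q.1.1 (u q.2) - φ q.1.2 (u q.2)) ∪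
      Finset.univ.image fun i => evK (φ i) (S i))
  obtain ⟨R, hwR, ψ, hψ⟩ := exists_specialisation (L := L) w
  have hmem : ∀ x ∈ w, x ∈ R := fun x hx => hwR hx
  have hcR : ∀ l, c l ∈ R := fun l => hmem _ (by simp [w])
  have hφR : ∀ i a, φ i a ∈ R := fun i a => by
    have ha : a ∈ Algebra.adjoin L (Set.range u) := hu ▸ Algebra.mem_top
    have hle : Algebra.adjoin L (Set.range u) ≤ R.comap (φ i) := Algebra.adjoin_le (by
      rintro _ ⟨j, rfl⟩
      exact hmem _ (by simp [w]))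
    exact hle ha
  have hsub : ∀ i, (↑(sS i) : Set k) ⊆ R ∧ (↑(sC i) : Set k) ⊆ R := fun i =>
    ⟨fun x hx => hmem x (by
      simp only [w, Finset.mem_union, Finset.mem_biUnion]
      exact .inl (.inr (.inl ⟨i, Finset.mem_univ i, hx⟩))),
    fun x hx => hmem x (by
      simp only [w, Finset.mem_union, Finset.mem_biUnion]
      exact .inl (.inr (.inr ⟨i, Finset.mem_univ i, hx⟩)))⟩
  choose S' hS' using fun i => (hsS i R (hsub i).1)
  choose C' hC' using fun i => (hsC i R (hsub i).2)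
  set m := Algebra.TensorProduct.map R.val (AlgHom.id L A)
  let φ' : τ → (A →ₐ[L] R) := fun i => (φ i).codRestrict R (hφR i)
  have hid' : ∀ i, S' i * ∑ l, (⟨c l, hcR l⟩ : R) ⊗ₜ G l =
      (1 ⊗ₜ t i - φ' i (t i) ⊗ₜ 1) ^ e i * C' i := fun i => by
    refine injective_map_val R ?_
    have h1 : m (S' i) = S i := hS' i
    have h2 : m (C' i) = C i := hC' i
    show m _ = m _
    rw [map_mul, map_sum, map_mul, map_pow, map_sub, h1, h2]
    simpa [m, φ'] using hid i
  let π : R ⊗[L] A →ₐ[L] A :=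
    Algebra.TensorProduct.lift ((Algebra.ofId L A).comp ψ) (AlgHom.id L A) fun _ _ => Commute.all _ _
  have hπ : ∀ (r : R) (a : A), π (r ⊗ₜ a) = ψ r • a := fun r a => by
    simp [π, Algebra.smul_def]
  set v : τ → (A →ₐ[L] L) := fun i => ψ.comp (φ' i)
  have hval : ∀ i (z : R ⊗[L] A) (hz : evK (φ i) (m z) ∈ R),
      v i (π z) = ψ ⟨evK (φ i) (m z), hz⟩ := fun i z => by
    suffices h : ∃ r : R, (r : k) = evK (φ i) (m z) ∧ v i (π z) = ψ r by
      intro hz
      obtain ⟨r, hr, hr'⟩ := h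
      exact hr'.trans (congrArg ψ (Subtype.ext hr))
    induction z using TensorProduct.induction_on with
    | zero => exact ⟨0, by simp⟩
    | tmul r a => exact ⟨r * φ' i a, by simp [m, φ'], by simp [hπ, v]⟩
    | add x y hx hy =>
      obtain ⟨r, hr, hr'⟩ := hx
      obtain ⟨r', hr₁, hr₂⟩ := hy
      exact ⟨r + r', by simp [hr, hr₁], by simp [hr', hr₂]⟩
  refine hG (fun l => ψ ⟨c l, hcR l⟩) (fun h0 => ?_) τ v (fun i j hij => ?_) e fun i => ?_
  · exact hψ (c l₀) (by simp [w]) (hcR l₀) hl₀ (congrFun h0 l₀)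
  · by_contra hne
    obtain ⟨o, ho⟩ : ∃ o, φ i (u o) ≠ φ j (u o) := by
      by_contra hall
      push Not at hall
      exact hne (hφ (algHom_ext_gen hu hall))
    have hd : φ i (u o) - φ j (u o) ∈ w := by
      simp only [w, Finset.mem_union, Finset.mem_image]
      exact .inr (.inl ⟨((i, j), o), Finset.mem_univ _, rfl⟩)
    refine hψ _ hd (sub_mem (hφR i _) (hφR j _)) (sub_ne_zero.2 ho) ?_
    have := AlgHom.congr_fun hij (u o)
    change ψ (φ' i (u o)) = ψ (φ' j (u o)) at this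
    rw [← sub_eq_zero, ← map_sub] at this
    exact this
  · have h1 : evK (φ i) (m (S' i)) = evK (φ i) (S i) := congrArg _ (hS' i)
    have hmS : evK (φ i) (S i) ∈ w := by simp [w]
    refine ⟨t i - algebraMap L A (v i (t i)), π (S' i), π (C' i), ?_, ?_, ?_⟩
    · simp
    · rw [hval i (S' i) (h1 ▸ hmem _ hmS), show
        (⟨evK (φ i) (m (S' i)), h1 ▸ hmem _ hmS⟩ : R) = ⟨_, hmem _ hmS⟩ from Subtype.ext h1]
      exact hψ _ hmS (hmem _ hmS) (hS i)
    · have h2 := congrArg π (hid' i)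
      simp only [map_mul, map_pow, map_sub, map_sum, hπ, map_one, one_smul] at h2
      rw [h2, Algebra.algebraMap_eq_smul_one]
      rfl

end FA.MW

end
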