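import Fermat.Agent.MW.Valued.Basic

/-!
# Division by a uniformiser in a disc

Near a residual point `φ` there is one function `t` such that, for every `O`-valued point `P`
above `φ`, every function vanishing at `P` is `1 ⊗ t - P t` times a function regular near `φ`.
-/

set_option autoImplicit false

noncomputable section

open Polynomial TensorProduct IsLocalRing
open scoped Matrix

namespace FA.MW

variable {L A : Type} [Field L] [CommRing A] [Algebra L A] {ι : Type} {u : ι → A}

/-- An algebraic element of a domain over an algebraically closed field is a constant. -/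
theorem mem_range_of_isAlgebraic [IsAlgClosed L] [IsDomain A] {b : A} (h : IsAlgebraic L b) :
    b ∈ (algebraMap L A).range :=
  minpoly.degree_eq_one_iff.1
    (IsAlgClosed.degree_eq_one_of_irreducible L (minpoly.irreducible h.isIntegral))

/-- A nonzero polynomial relation, with the common factors `X` of the coefficients removed. -/
theorem exists_relation_not_dvd [IsDomain A] {b a : A} (hb : b ≠ 0) {p : L[X][X]} (hp : p ≠ 0)
    (he : (p.map (aeval b : L[X] →ₐ[L] A).toRingHom).eval a = 0) :
    ∃ q : L[X][X], (q.map (evalRingHom (0 : L))) ≠ 0 ∧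
      (q.map (aeval b : L[X] →ₐ[L] A).toRingHom).eval a = 0 := by
  have hX : Prime (C X : L[X][X]) := prime_C_iff.2 prime_X
  obtain ⟨q, hq, hndvd⟩ :=
    (FiniteMultiplicity.of_prime_left hX hp).exists_eq_pow_mul_and_not_dvd
  refine ⟨q, fun h0 => hndvd (C_dvd_iff_dvd_coeff _ _ |>.2 fun i => X_dvd_iff.2 ?_), ?_⟩
  · have := congrArg (fun r => r.coeff i) h0
    simpa [coeff_map, coeff_zero_eq_eval_zero] using this
  · rw [hq, Polynomial.map_mul, Polynomial.map_pow, Polynomial.map_C, eval_mul, eval_pow, eval_C,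
      mul_eq_zero] at he
    refine he.resolve_left (pow_ne_zero _ ?_)
    simpa using hb

/-- Algebra maps commute with the evaluation of bivariate polynomials. -/
theorem algHom_eval_map {B C : Type} [CommRing B] [Algebra L B] [CommRing C] [Algebra L C]
    (f : B →ₐ[L] C) (x y : B) (r : L[X][X]) :
    f ((r.map (aeval x : L[X] →ₐ[L] B).toRingHom).eval y) =
      (r.map (aeval (f x) : L[X] →ₐ[L] C).toRingHom).eval (f y) := by
  rw [← AlgHom.coe_toRingHom f, ← eval_map_apply, Polynomial.map_map]
  exact congrArg (fun g => (r.map g).eval ((f : B →+* C) y))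
    (RingHom.ext fun z => (aeval_algHom_apply f x z).symm)

/-- A residual point which is not injective is an algebraic point. -/
theorem AffCurve.exists_const_of_not_injective [IsAlgClosed L] [IsDomain A] (h : AffCurve L A u)
    {k : Type} [Field k] [Algebra L k] (φ : A →ₐ[L] k) (hφ : ¬ Function.Injective φ) :
    ∃ v : A →ₐ[L] L, φ = (Algebra.ofId L k).comp v := by
  obtain ⟨b, hb0, hb⟩ : ∃ b, b ≠ 0 ∧ φ b = 0 := by
    by_contra hno
    push Not at hno
    exact hφ ((injective_iff_map_eq_zero φ).2 fun b hb => by_contra fun h0 => hno b h0 hb)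
  have htr : Transcendental L b := fun halg => by
    obtain ⟨c, rfl⟩ := mem_range_of_isAlgebraic halg
    rw [AlgHom.commutes, map_eq_zero] at hb
    exact hb0 (by rw [hb, map_zero])
  have hrange : ∀ a : A, ∃ c : L, algebraMap L k c = φ a := fun a => by
    obtain ⟨p, hp, he⟩ := h.alg b a htr
    obtain ⟨q, hq, hq0⟩ := exists_relation_not_dvd hb0 hp he
    refine mem_range_of_isAlgebraic (A := k) ⟨_, hq, ?_⟩
    have h2 := congrArg φ hq0
    rw [map_zero, algHom_eval_map] at h2
    have e : (aeval (φ b) : L[X] →ₐ[L] k).toRingHom =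
        (algebraMap L k).comp (evalRingHom (0 : L)) := by
      refine Polynomial.ringHom_ext (fun c => ?_) ?_
      · simp
      · simp [hb]
    rw [e, ← Polynomial.map_map, eval_map] at h2
    simpa [aeval_def] using h2
  choose c hc using hrange
  have hinj := (algebraMap L k).injective
  refine ⟨{
    toFun := c
    map_one' := hinj (by simp [hc])
    map_mul' := fun x y => hinj (by simp [hc])
    map_zero' := hinj (by simp [hc])
    map_add' := fun x y => hinj (by simp [hc])
    commutes' := fun r => hinj (by simp [hc]) }, AlgHom.ext fun a => (hc a).symm⟩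

variable {O : Type} [CommRing O] [Algebra L O] [IsLocalRing O]

/-- At a point where the derivative of a relation does not vanish, the first coordinate is a
uniformiser. -/
theorem del_mem_divIdeal_of_relation (φ : A →ₐ[L] ResidueField O) {t a : A} {p : L[X][X]}
    (he : (p.map (aeval t : L[X] →ₐ[L] A).toRingHom).eval a = 0)
    (hd : φ ((p.derivative.map (aeval t : L[X] →ₐ[L] A).toRingHom).eval a) ≠ 0)
    {P : A →ₐ[L] O} (hP : redPt P = φ) : del P a ∈ divIdeal φ t P := by
  set T := O ⊗[L] A
  set ir : A →ₐ[L] T := Algebra.TensorProduct.includeRight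
  set x : T := 1 ⊗ₜ t with hx
  set x₀ : T := P t ⊗ₜ 1 with hx₀
  set y : T := 1 ⊗ₜ a with hy
  set y₀ : T := P a ⊗ₜ 1 with hy₀
  set il : A →ₐ[L] T :=
    (Algebra.TensorProduct.includeLeft : O →ₐ[L] T).comp P
  have hmap : ∀ (f : A →ₐ[L] T) (r : L[X][X]),
      (r.map (aeval (f t) : L[X] →ₐ[L] T).toRingHom).eval (f a) =
        f ((r.map (aeval t : L[X] →ₐ[L] A).toRingHom).eval a) := fun f r =>
    (algHom_eval_map f t a r).symm
  set Pm := p.map (aeval x : L[X] →ₐ[L] T).toRingHom
  have h1 : Pm.eval y = 0 := by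
    rw [show Pm.eval y = ir ((p.map (aeval t : L[X] →ₐ[L] A).toRingHom).eval a) from hmap ir p, he,
      map_zero]
  have h2 : (p.map (aeval x₀ : L[X] →ₐ[L] T).toRingHom).eval y₀ = 0 := by
    rw [show (p.map (aeval x₀ : L[X] →ₐ[L] T).toRingHom).eval y₀ =
      il ((p.map (aeval t : L[X] →ₐ[L] A).toRingHom).eval a) from hmap il p, he, map_zero]
  obtain ⟨k₂, hk₂⟩ := Pm.binomExpansion y₀ (y - y₀)
  rw [add_sub_cancel, h1] at hk₂
  obtain ⟨k₁, hk₁⟩ : x - x₀ ∣ Pm.eval y₀ - (p.map (aeval x₀ : L[X] →ₐ[L] T).toRingHom).eval y₀ := by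
    rw [eval_map, eval_map, eval₂_eq_sum, eval₂_eq_sum, Polynomial.sum, Polynomial.sum,
      ← Finset.sum_sub_distrib]
    refine Finset.dvd_sum fun i _ => ?_
    rw [← sub_mul]
    refine dvd_mul_of_dvd_left ?_ _
    have hs := sub_dvd_eval_sub x x₀ ((p.coeff i).map (algebraMap L T))
    simpa [eval_map, aeval_def] using hs
  rw [h2, sub_zero] at hk₁
  rw [hk₁] at hk₂
  refine ⟨Pm.derivative.eval y₀ + k₂ * (y - y₀), -k₁, ?_, ?_⟩
  · have hy0 : evR φ (y - y₀) = 0 := by simp [y, y₀, ← hP]
    rw [map_add, map_mul, hy0, mul_zero, add_zero]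
    have e1 := algHom_eval_map ((evR φ).restrictScalars L) x y₀ p.derivative
    rw [algHom_eval_map] at hd
    rw [derivative_map]
    refine fun h0 => hd ?_
    have ex : ((evR φ).restrictScalars L) x = φ t := by simp [x]
    have ey : ((evR φ).restrictScalars L) y₀ = φ a := by simp [y₀, ← hP]
    rw [ex, ey] at e1
    exact e1.symm.trans h0
  · show (Pm.derivative.eval y₀ + k₂ * (y - y₀)) * (y - y₀) = (x - x₀) * -k₁
    linear_combination -hk₂

/-- **The division lemma.** -/
theorem AffCurve.exists_uniformiser [IsAlgClosed L] [CharZero L] [IsDomain A] [Fintype ι]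
    (h : AffCurve L A u) (φ : A →ₐ[L] ResidueField O) :
    ∃ t : A, ∀ P : A →ₐ[L] O, redPt P = φ → ∀ a, del P a ∈ divIdeal φ t P := by
  classical
  by_cases hφ : Function.Injective φ
  · by_cases hall : ∀ i, IsAlgebraic L (u i)
    · refine ⟨0, fun P hP a => del_mem_of_gen h.gen P _ (fun i => ?_) a⟩
      obtain ⟨c, hc⟩ := mem_range_of_isAlgebraic (hall i)
      rw [← hc, del_algebraMap]
      exact Ideal.zero_mem _
    push Not at hall
    obtain ⟨i₀, hi₀⟩ := hall
    refine ⟨u i₀, fun P hP a => ?_⟩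
    have hex : ∃ d, ∃ p : L[X][X], p ≠ 0 ∧ p.natDegree = d ∧
        (p.map (aeval (u i₀) : L[X] →ₐ[L] A).toRingHom).eval a = 0 := by
      obtain ⟨p, hp, he⟩ := h.alg (u i₀) a hi₀
      exact ⟨_, p, hp, rfl, he⟩
    obtain ⟨p, hp, hdeg, he⟩ := Nat.find_spec hex
    have hpos : p.natDegree ≠ 0 := fun h0 => by
      rw [eq_C_of_natDegree_eq_zero h0, Polynomial.map_C, eval_C] at he
      have hc : p.coeff 0 ≠ 0 := fun hc =>
        hp (by rw [eq_C_of_natDegree_eq_zero h0, hc, map_zero])
      exact hi₀ ⟨_, hc, he⟩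
    refine del_mem_divIdeal_of_relation φ he ((map_ne_zero_iff φ hφ).2 fun h0 => ?_) hP
    refine Nat.find_min hex ?_ ⟨p.derivative, fun hd0 => hpos (natDegree_eq_zero_of_derivative_eq_zero hd0), rfl, h0⟩
    rw [← hdeg]
    exact natDegree_derivative_lt hpos
  · obtain ⟨v, rfl⟩ := h.exists_const_of_not_injective φ hφ
    obtain ⟨t, hvt, hci⟩ := h.unif v
    choose c s hs hid using hci
    refine ⟨t, fun P hP a => del_mem_of_gen h.gen P _ (fun i => ?_) a⟩
    set T := O ⊗[L] A
    set J : Ideal T := Ideal.span (Set.range fun j => del P (u j))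
    have hspan : ∀ b, ∃ w : ι → T, del P b = ∑ j, w j * del P (u j) := fun b => by
      have hb := del_mem_of_gen h.gen P J (fun j => Ideal.subset_span ⟨j, rfl⟩) b
      obtain ⟨w, hw⟩ := Ideal.mem_span_range_iff_exists_fun.1 hb
      exact ⟨w, hw.symm⟩
    choose W hW using hspan
    set s₁ : ι → T := fun i => 1 ⊗ₜ s i
    set s₀ : ι → T := fun i => P (s i) ⊗ₜ 1
    set c₁ : ι → T := fun i => 1 ⊗ₜ c i
    set c₀ : ι → T := fun i => P (c i) ⊗ₜ 1
    set x₀ : T := P t ⊗ₜ 1
    set M : Matrix ι ι T := Matrix.of fun i j =>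
      (if i = j then s₁ i * s₀ i else 0) - x₀ * (s₀ i * W (c i) j - c₀ i * W (s i) j)
    have key : ∀ i, (M *ᵥ fun j => del P (u j)) i = del P t * (s₀ i * c₁ i) := fun i => by
      have e₁ := congrArg (Algebra.TensorProduct.includeRight : A →ₐ[L] T) (hid i)
      have e₀ := congrArg ((Algebra.TensorProduct.includeLeft : O →ₐ[L] T).comp P) (hid i)
      have ec : c₁ i - c₀ i = ∑ j, W (c i) j * del P (u j) := hW (c i)
      have es : s₁ i - s₀ i = ∑ j, W (s i) j * del P (u j) := hW (s i)
      simp only [map_mul, map_sub, AlgHom.commutes] at e₁ e₀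
      change s₁ i * ((1 ⊗ₜ u i : T) - algebraMap L T _) = (1 ⊗ₜ t : T) * c₁ i at e₁
      change s₀ i * ((P (u i) ⊗ₜ 1 : T) - algebraMap L T _) = x₀ * c₀ i at e₀
      simp only [M, Matrix.mulVec, dotProduct, Matrix.of_apply, sub_mul, Finset.sum_sub_distrib,
        mul_sub, mul_assoc, ite_mul, zero_mul, Finset.sum_ite_eq, Finset.mem_univ, if_true,
        ← Finset.mul_sum, ← ec, ← es]
      show s₁ i * (s₀ i * ((1 ⊗ₜ u i : T) - P (u i) ⊗ₜ 1)) - _ = ((1 ⊗ₜ t : T) - x₀) * _
      linear_combination s₀ i * e₁ - s₁ i * e₀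
    have hadj : ∀ i, M.det * del P (u i) =
        del P t * ∑ j, M.adjugate i j * (s₀ j * c₁ j) := fun i => by
      have h0 := congrFun (congrArg (fun N => N *ᵥ fun j => del P (u j)) (Matrix.adjugate_mul M)) i
      simp only [← Matrix.mulVec_mulVec, Matrix.smul_mulVec, Matrix.one_mulVec, Pi.smul_apply,
        smul_eq_mul] at h0
      rw [← h0, Matrix.mulVec, dotProduct, Finset.mul_sum]
      exact Finset.sum_congr rfl fun j _ => by rw [key j]; ring
    refine ⟨M.det, _, ?_, hadj i⟩
    have hval : ∀ b, residue O (P b) = algebraMap L (ResidueField O) (v b) := fun b => by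
      rw [← redPt_apply, hP]; rfl
    rw [AlgHom.map_det]
    have hdiag : (evR ((Algebra.ofId L (ResidueField O)).comp v)).mapMatrix M =
        Matrix.diagonal fun i => algebraMap L (ResidueField O) (v (s i) * v (s i)) := by
      ext i j
      by_cases hij : i = j
      · subst hij
        simp [M, x₀, s₁, s₀, hval, hvt]
      · simp [M, x₀, hval, hvt, hij]
    rw [hdiag, Matrix.det_diagonal, Finset.prod_ne_zero_iff]
    exact fun i _ => (_root_.map_ne_zero _).2 (mul_ne_zero (hs i) (hs i))

end FA.MW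

end
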