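import Fermat.Agent.MW.Valued.Division
import Fermat.Agent.MW.Valued.Count

/-!
# The value of a function with prescribed zeros

A saturated combination `G` of a family with zero bound `d`, vanishing at `d` distinct points,
has at every point `Q` the value `unit * ∏ dist(P i, Q)`, and at one of its zeros the derivative
`unit * tang * ∏ (others) dist`.
-/

set_option autoImplicit false

noncomputable section

open TensorProduct IsLocalRing

namespace FA.MW

variable {L A : Type} [Field L] [CommRing A] [Algebra L A]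
variable {O : Type} [CommRing O] [IsDomain O] [Algebra L O]

/-- Two generators of the same module differ by a unit. -/
theorem Gen.exists_unit {M ι : Type} [AddCommGroup M] [Module O M] [Module.IsTorsionFree O M]
    {x : ι → M} {d d' : M} (h : Gen O x d) (h' : Gen O x d') : ∃ a : Oˣ, d = (a : O) • d' := by
  obtain ⟨h1, h2⟩ := h
  obtain ⟨h1', h2'⟩ := h'
  have hle : ∀ {y z : M}, (∀ i, ∃ c : O, x i = c • y) → z ∈ Submodule.span O (Set.range x) →
      ∃ c : O, z = c • y := by
    intro y z hy hz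
    have hsub : Submodule.span O (Set.range x) ≤ O ∙ y := Submodule.span_le.2 (by
      rintro _ ⟨i, rfl⟩
      obtain ⟨c, hc⟩ := hy i
      exact Submodule.mem_span_singleton.2 ⟨c, hc.symm⟩)
    obtain ⟨c, hc⟩ := Submodule.mem_span_singleton.1 (hsub hz)
    exact ⟨c, hc.symm⟩
  obtain ⟨a, ha⟩ := hle h1' h2
  obtain ⟨b, hb⟩ := hle h1 h2'
  rcases eq_or_ne d' 0 with rfl | hd'
  · exact ⟨1, by simp [ha]⟩
  · have hab : (b * a) • d' = (1 : O) • d' := by rw [mul_smul, ← ha, ← hb, one_smul]
    have hab' : b * a = 1 := smul_left_injective O hd' hab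
    exact ⟨⟨a, b, (mul_comm a b).trans hab', hab'⟩, ha⟩

variable [IsLocalRing O]

/-- Residual functions. -/
def redT : O ⊗[L] A →ₐ[L] ResidueField O ⊗[L] A :=
  Algebra.TensorProduct.map (IsScalarTower.toAlgHom L O (ResidueField O)) (AlgHom.id L A)

@[simp]
theorem redT_tmul (c : O) (a : A) : redT (c ⊗ₜ[L] a) = residue O c ⊗ₜ a := by
  simp [redT]

theorem evK_redT (φ : A →ₐ[L] ResidueField O) (G : O ⊗[L] A) : evK φ (redT G) = evR φ G := by
  induction G using TensorProduct.induction_on with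
  | zero => simp
  | tmul c a => simp
  | add x y hx hy => simp [hx, hy]

theorem redT_del {φ : A →ₐ[L] ResidueField O} {P : A →ₐ[L] O} (h : redPt P = φ) (a : A) :
    redT (del P a) = 1 ⊗ₜ a - φ a ⊗ₜ 1 := by
  simp [del, ← h]

theorem redT_value {P : A →ₐ[L] O} (G : O ⊗[L] A) {φ : A →ₐ[L] ResidueField O}
    (h : redPt P = φ) (hG : evR φ G = 0) : redT (evT P G ⊗ₜ[L] (1 : A)) = 0 := by
  simp [residue_evT h, hG]

variable [IsAlgClosed L] [CharZero L] [IsDomain A] {ι κ : Type} [Fintype ι] [Fintype κ]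
  {u : ι → A}

/-- A uniformiser in the disc of a residual point. -/
def AffCurve.tOf (h : AffCurve L A u) (φ : A →ₐ[L] ResidueField O) : A :=
  (h.exists_uniformiser φ).choose

theorem AffCurve.mem_div (h : AffCurve L A u) {φ : A →ₐ[L] ResidueField O} {P : A →ₐ[L] O}
    (hP : redPt P = φ) {G : O ⊗[L] A} (hG : evT P G = 0) :
    ∃ S C, evR φ S ≠ 0 ∧ S * G = del P (h.tOf φ) * C := by
  obtain ⟨n, c, a, he⟩ := eq_value_add P G
  rw [hG, zero_tmul, zero_add] at he
  rw [← mem_divIdeal, he]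
  exact Ideal.sum_mem _ fun j _ =>
    Ideal.mul_mem_left _ _ ((h.exists_uniformiser φ).choose_spec P hP _)

/-- In a disc the uniformiser computes the distance. -/
theorem AffCurve.gen_tOf (h : AffCurve L A u) {P Q : A →ₐ[L] O} (hPQ : redPt P = redPt Q) :
    Gen O (fun i => Q (u i) - P (u i)) (Q (h.tOf (redPt Q)) - P (h.tOf (redPt Q))) := by
  refine ⟨fun i => ?_, sub_mem_span_gen h.gen P Q _⟩
  obtain ⟨S, C, hS, hid⟩ := (h.exists_uniformiser (redPt Q)).choose_spec P hPQ (u i)
  obtain ⟨a, ha⟩ := isUnit_evT (P := Q) rfl hS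
  refine ⟨((a⁻¹ : Oˣ) : O) * evT Q C, ?_⟩
  have h1 := congrArg (evT Q) hid
  simp only [map_mul, evT_del, ← ha] at h1
  rw [smul_eq_mul]
  calc Q (u i) - P (u i) = ((a⁻¹ : Oˣ) : O) * ((a : O) * (Q (u i) - P (u i))) := by
        rw [← mul_assoc, Units.inv_mul, one_mul]
    _ = _ := by rw [h1, AffCurve.tOf]; ring

theorem AffCurve.tOf_ne (h : AffCurve L A u) {P Q : A →ₐ[L] O} (hPQ : redPt P = redPt Q)
    (hne : P ≠ Q) : Q (h.tOf (redPt Q)) - P (h.tOf (redPt Q)) ≠ 0 := fun h0 => by
  refine hne (algHom_ext_gen h.gen fun i => ?_)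
  obtain ⟨c, hc⟩ := (h.gen_tOf hPQ).1 i
  rw [h0, smul_zero, sub_eq_zero] at hc
  exact hc.symm

/-- Several zeros in one disc. -/
theorem AffCurve.exists_factor (h : AffCurve L A u) {τ : Type} [DecidableEq τ]
    {φ : A →ₐ[L] ResidueField O} (P : τ → (A →ₐ[L] O)) (hP : Function.Injective P)
    {G : O ⊗[L] A} (s : Finset τ) (hs : ∀ i ∈ s, redPt (P i) = φ ∧ evT (P i) G = 0) :
    ∃ S C, evR φ S ≠ 0 ∧ S * G = (∏ i ∈ s, del (P i) (h.tOf φ)) * C := by
  induction s using Finset.induction_on with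
  | empty => exact ⟨1, G, by simp, by simp⟩
  | @insert j s hj ih =>
    obtain ⟨S, C, hS, hid⟩ := ih fun i hi => hs i (Finset.mem_insert_of_mem hi)
    obtain ⟨hjφ, hj0⟩ := hs j (Finset.mem_insert_self j s)
    have hC : evT (P j) C = 0 := by
      have h1 := congrArg (evT (P j)) hid
      rw [map_mul, map_mul, hj0, mul_zero, map_prod] at h1
      refine (mul_eq_zero.1 h1.symm).resolve_left (Finset.prod_ne_zero_iff.2 fun i hi => ?_)
      have hiφ := (hs i (Finset.mem_insert_of_mem hi)).1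
      rw [evT_del, ← hjφ]
      exact h.tOf_ne (hiφ.trans hjφ.symm) fun he => hj (hP he ▸ hi)
    obtain ⟨S', C', hS', hid'⟩ := h.mem_div hjφ hC
    refine ⟨S' * S, C', by simp [hS, hS'], ?_⟩
    rw [Finset.prod_insert hj, mul_assoc, hid, mul_left_comm, hid']
    ring

variable {G : κ → A} {d : ℕ}

open scoped Classical in
/-- The zeros exhaust the divisor of a saturated function, disc by disc. -/
theorem AffCurve.exists_factor_unit (h : AffCurve L A u) (hG : ZeroBound L G d) {τ : Type}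
    [Fintype τ] (P : τ → (A →ₐ[L] O)) (hP : Function.Injective P) (hd : d ≤ Fintype.card τ)
    (c : κ → O) (hc : ∃ l, IsUnit (c l)) (hz : ∀ i, ∑ l, c l * P i (G l) = 0)
    (Q : A →ₐ[L] O) :
    ∃ S C, evR (redPt Q) S ≠ 0 ∧ evR (redPt Q) C ≠ 0 ∧
      S * ∑ l, c l ⊗ₜ[L] G l =
        (∏ i ∈ Finset.univ.filter (fun i => redPt (P i) = redPt Q), del (P i) (h.tOf (redPt Q))) *
          C := by
  set GT : O ⊗[L] A := ∑ l, c l ⊗ₜ[L] G l with hGT
  have hz' : ∀ i, evT (P i) GT = 0 := fun i => by simpa [hGT] using hz i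
  set fib : (A →ₐ[L] ResidueField O) → Finset τ := fun φ =>
    Finset.univ.filter fun i => redPt (P i) = φ
  have hfac : ∀ φ, ∃ S C, evR φ S ≠ 0 ∧ S * GT = (∏ i ∈ fib φ, del (P i) (h.tOf φ)) * C :=
    fun φ => h.exists_factor P hP _ fun i hi => ⟨(Finset.mem_filter.1 hi).2, hz' i⟩
  choose S C hS hid using hfac
  refine ⟨S (redPt Q), C (redPt Q), hS _, fun h0 => ?_, hid _⟩
  obtain ⟨l₀, hl₀⟩ := hc
  obtain ⟨n, cc, aa, he⟩ := eq_value_add Q (C (redPt Q))
  obtain ⟨S', C', hS', hid'⟩ : ∃ S' C', evR (redPt Q) S' ≠ 0 ∧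
      S' * (C (redPt Q) - evT Q (C (redPt Q)) ⊗ₜ 1) = del Q (h.tOf (redPt Q)) * C' :=
    h.mem_div rfl (by simp)
  have hC0 : redT (S') * redT (C (redPt Q)) =
      redT (del Q (h.tOf (redPt Q))) * redT C' := by
    have h1 := congrArg (redT (L := L) (A := A) (O := O)) hid'
    rw [map_mul, map_mul, map_sub, redT_value _ rfl h0, sub_zero] at h1
    exact h1
  set Φ : Finset (A →ₐ[L] ResidueField O) :=
    insert (redPt Q) (Finset.univ.image fun i => redPt (P i))
  have hb := hG.sum_le h.gen (τ := Φ) (fun φ => φ.1) Subtype.val_injective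
    (fun l => residue O (c l))
    (fun hz0 => (hl₀.map (residue O)).ne_zero (congrFun hz0 l₀))
    (fun φ => (fib φ.1).card + if φ.1 = redPt Q then 1 else 0) fun φ => ?_
  · have hsum : ∑ φ : Φ, ((fib φ.1).card + if φ.1 = redPt Q then 1 else 0) =
        Fintype.card τ + 1 := by
      rw [Finset.sum_coe_sort Φ fun φ => (fib φ).card + if φ = redPt Q then 1 else 0,
        Finset.sum_add_distrib, Finset.sum_ite_eq' Φ, if_pos (Finset.mem_insert_self _ _),
        ← Finset.card_univ,
        Finset.card_eq_sum_card_fiberwise (f := fun i => redPt (P i)) (t := Φ) fun i _ =>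
          Finset.mem_insert_of_mem (Finset.mem_image_of_mem _ (Finset.mem_univ i))]
    rw [hsum] at hb
    omega
  · obtain ⟨φ, hφ⟩ := φ
    have hred := congrArg (redT (L := L) (A := A) (O := O)) (hid φ)
    rw [map_mul, map_mul, map_prod, Finset.prod_congr rfl (fun i hi =>
      redT_del (Finset.mem_filter.1 hi).2 (h.tOf φ)), Finset.prod_const] at hred
    have hGTk : redT GT = ∑ l, residue O (c l) ⊗ₜ G l := by simp [hGT]
    rw [hGTk] at hred
    refine ⟨h.tOf φ, ?_⟩
    by_cases hq : φ = redPt Q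
    · subst hq
      simp only [if_true]
      refine ⟨redT S' * redT (S (redPt Q)), redT C', ?_, ?_⟩
      · simp [evK_redT, hS', hS]
      · rw [mul_assoc, hred, mul_left_comm, hC0, redT_del rfl, pow_succ]
        ring
    · refine ⟨redT (S φ), redT (C φ), ?_, ?_⟩
      · simpa [evK_redT] using hS φ
      · simp only [if_neg hq, add_zero]
        exact hred

/-- **Lemma A.** The value of a saturated function with `d` given zeros. -/
theorem AffCurve.value_eq_prod (h : AffCurve L A u) (hG : ZeroBound L G d) {τ : Type}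
    [Fintype τ] (P : τ → (A →ₐ[L] O)) (hP : Function.Injective P) (hd : d ≤ Fintype.card τ)
    (c : κ → O) (hc : ∃ l, IsUnit (c l)) (hz : ∀ i, ∑ l, c l * P i (G l) = 0)
    (Q : A →ₐ[L] O) (δ : τ → O) (hδ : ∀ i, Gen O (fun j => Q (u j) - P i (u j)) (δ i)) :
    ∃ e : Oˣ, ∑ l, c l * Q (G l) = (e : O) * ∏ i, δ i := by
  classical
  obtain ⟨S, C, hS, hC, hid⟩ := h.exists_factor_unit hG P hP hd c hc hz Q
  have hδ' : ∀ i, ∃ a : Oˣ, δ i = (a : O) *
      if redPt (P i) = redPt Q then Q (h.tOf (redPt Q)) - P i (h.tOf (redPt Q)) else 1 := by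
    intro i
    by_cases hi : redPt (P i) = redPt Q
    · rw [if_pos hi]; exact (hδ i).exists_unit (h.gen_tOf hi)
    · rw [if_neg hi]; exact (hδ i).exists_unit (gen_one_of_ne h.gen hi)
  choose a ha using hδ'
  have h1 := congrArg (evT Q) hid
  simp only [map_mul, map_sum, evT_tmul, map_prod, evT_del] at h1
  rw [Finset.prod_filter] at h1
  obtain ⟨sU, hsU⟩ := isUnit_evT (P := Q) rfl hS
  obtain ⟨cU, hcU⟩ := isUnit_evT (P := Q) rfl hC
  refine ⟨sU⁻¹ * cU * (∏ i, a i)⁻¹, ?_⟩
  rw [Finset.prod_congr rfl fun i _ => ha i, Finset.prod_mul_distrib, ← Units.coe_prod,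
    Units.val_mul, Units.val_mul, mul_assoc ((sU⁻¹ : Oˣ) : O) (cU : O), mul_assoc,
    mul_assoc, ← mul_assoc ((∏ i, a i)⁻¹ : Oˣ).1, Units.inv_mul, one_mul]
  rw [← hsU, ← hcU] at h1
  rw [eq_comm, mul_comm (cU : O), ← h1, ← mul_assoc, Units.inv_mul, one_mul]

section derivation

variable {K : Type} [Field K] [Algebra O K] [Algebra L K] [IsScalarTower L O K]

/-- The extension of a derivation at a point to functions with coefficients in `O`. -/
def derT (D : A →ₗ[L] K) : O ⊗[L] A →ₗ[O] K := LinearMap.liftBaseChange O D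

omit [IsLocalRing O] [IsDomain O] [IsAlgClosed L] [CharZero L] [IsDomain A] in
theorem derT_mul {P : A →ₐ[L] O} {D : A →ₗ[L] K}
    (hD : ∀ a b, D (a * b) = algebraMap O K (P a) * D b + algebraMap O K (P b) * D a)
    (X Y : O ⊗[L] A) :
    derT D (X * Y) = evT P X • derT D Y + evT P Y • derT D X := by
  induction X using TensorProduct.induction_on with
  | zero => simp
  | tmul c a =>
    induction Y using TensorProduct.induction_on with
    | zero => simp
    | tmul c' b =>
      simp only [derT, Algebra.TensorProduct.tmul_mul_tmul, LinearMap.liftBaseChange_tmul,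
        evT_tmul, hD, Algebra.smul_def, map_mul]
      ring
    | add x y hx hy => rw [mul_add, map_add, hx, hy, map_add, map_add, smul_add, add_smul]; abel
  | add x y hx hy => rw [add_mul, map_add, hx, hy, map_add, map_add, smul_add, add_smul]; abel

omit [IsLocalRing O] [IsDomain O] [IsAlgClosed L] [CharZero L] [IsDomain A] in
theorem derT_del {P : A →ₐ[L] O} {D : A →ₗ[L] K}
    (hD : ∀ a b, D (a * b) = algebraMap O K (P a) * D b + algebraMap O K (P b) * D a)
    (Q : A →ₐ[L] O) (a : A) : derT D (del Q a) = D a := by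
  have h1 : D 1 = 0 := by simpa using hD 1 1
  simp [derT, del, h1]

omit [IsLocalRing O] [IsDomain O] [IsAlgClosed L] [CharZero L] [IsDomain A] [Fintype ι] in
theorem der_mem_span {P : A →ₐ[L] O} {D : A →ₗ[L] K}
    (hD : ∀ a b, D (a * b) = algebraMap O K (P a) * D b + algebraMap O K (P b) * D a)
    (hu : Algebra.adjoin L (Set.range u) = ⊤) (a : A) :
    D a ∈ Submodule.span O (Set.range fun i => D (u i)) := by
  have ha : a ∈ Algebra.adjoin L (Set.range u) := hu ▸ Algebra.mem_top
  induction ha using Algebra.adjoin_induction with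
  | mem x hx => obtain ⟨i, rfl⟩ := hx; exact Submodule.subset_span ⟨i, rfl⟩
  | algebraMap c =>
    have h1 : D 1 = 0 := by simpa using hD 1 1
    simp [Algebra.algebraMap_eq_smul_one, h1]
  | add x y _ _ hx hy => rw [map_add]; exact add_mem hx hy
  | mul x y _ _ hx hy =>
    rw [hD, ← Algebra.smul_def, ← Algebra.smul_def]
    exact add_mem (Submodule.smul_mem _ _ hy) (Submodule.smul_mem _ _ hx)

/-- The derivative of the uniformiser generates those of all functions. -/
theorem AffCurve.gen_der (h : AffCurve L A u) {P : A →ₐ[L] O} {D : A →ₗ[L] K}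
    (hD : ∀ a b, D (a * b) = algebraMap O K (P a) * D b + algebraMap O K (P b) * D a) :
    Gen O (fun i => D (u i)) (D (h.tOf (redPt P))) := by
  refine ⟨fun i => ?_, der_mem_span hD h.gen _⟩
  obtain ⟨S, C, hS, hid⟩ := h.mem_div (P := P) (G := del P (u i)) rfl (by rw [evT_del, sub_self])
  obtain ⟨a, ha⟩ := isUnit_evT (P := P) rfl hS
  refine ⟨((a⁻¹ : Oˣ) : O) * evT P C, ?_⟩
  have h1 := congrArg (derT D) hid
  rw [derT_mul hD, derT_mul hD, derT_del hD, derT_del hD] at h1
  simp only [evT_del, sub_self, zero_smul, add_zero, zero_add, ← ha] at h1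
  rw [mul_smul, ← h1, ← mul_smul, Units.inv_mul, one_smul]

/-- **Lemma A'.** The derivative of a saturated function at one of its `d` given zeros. -/
theorem AffCurve.der_eq_prod [Module.IsTorsionFree O K] [DecidableEq κ] (h : AffCurve L A u)
    (hG : ZeroBound L G d) {τ : Type} [Fintype τ] [DecidableEq τ] (P : τ → (A →ₐ[L] O))
    (hP : Function.Injective P) (hd : d ≤ Fintype.card τ) (c : κ → O) (hc : ∃ l, IsUnit (c l))
    (hz : ∀ i, ∑ l, c l * P i (G l) = 0) (j : τ) {D : A →ₗ[L] K}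
    (hD : ∀ a b, D (a * b) = algebraMap O K (P j a) * D b + algebraMap O K (P j b) * D a)
    (tg : K) (htg : Gen O (fun i => D (u i)) tg)
    (δ : τ → O) (hδ : ∀ i, i ≠ j → Gen O (fun o => P j (u o) - P i (u o)) (δ i)) :
    ∃ e : Oˣ, ∑ l, c l • D (G l) = ((e : O) * ∏ i ∈ Finset.univ.erase j, δ i) • tg := by
  classical
  obtain ⟨S, C, hS, hC, hid⟩ := h.exists_factor_unit hG P hP hd c hc hz (P j)
  set t := h.tOf (redPt (P j))
  set s := Finset.univ.filter fun i => redPt (P i) = redPt (P j)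
  have hjs : j ∈ s := by simp [s]
  rw [← Finset.mul_prod_erase _ _ hjs, mul_assoc] at hid
  have h1 := congrArg (derT D) hid
  have hz' : evT (P j) (∑ l, c l ⊗ₜ[L] G l) = 0 := by simpa using hz j
  rw [derT_mul hD, derT_mul hD, hz', zero_smul, add_zero, evT_del, sub_self, zero_smul, zero_add,
    derT_del hD, map_mul, map_prod] at h1
  simp only [evT_del] at h1
  have hdT : derT D (∑ l, c l ⊗ₜ[L] G l) = ∑ l, c l • D (G l) := by simp [derT]
  rw [hdT] at h1
  obtain ⟨a, ha⟩ := (h.gen_der hD).exists_unit htg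
  obtain ⟨sU, hsU⟩ := isUnit_evT (P := P j) rfl hS
  obtain ⟨cU, hcU⟩ := isUnit_evT (P := P j) rfl hC
  have hδ' : ∀ i, i ≠ j → ∃ b : Oˣ, (if redPt (P i) = redPt (P j) then P j t - P i t else 1) =
      (b : O) * δ i := by
    intro i hi
    by_cases hr : redPt (P i) = redPt (P j)
    · rw [if_pos hr]; exact (h.gen_tOf hr).exists_unit (hδ i hi)
    · rw [if_neg hr]; exact (gen_one_of_ne h.gen hr).exists_unit (hδ i hi)
  choose! b hb using hδ'
  have hprod : ∏ i ∈ s.erase j, (P j t - P i t) =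
      ((∏ i ∈ Finset.univ.erase j, b i : Oˣ) : O) * ∏ i ∈ Finset.univ.erase j, δ i := by
    rw [Units.coe_prod, ← Finset.prod_mul_distrib,
      ← Finset.prod_congr rfl fun i hi => hb i (Finset.ne_of_mem_erase hi)]
    simp only [s, ← Finset.filter_erase, Finset.prod_filter]
  rw [hprod, ← hcU, ← hsU, ha] at h1
  refine ⟨sU⁻¹ * (∏ i ∈ Finset.univ.erase j, b i) * cU * a, ?_⟩
  calc ∑ l, c l • D (G l) = ((sU⁻¹ : Oˣ) : O) • ((sU : O) • ∑ l, c l • D (G l)) := by
        rw [smul_smul, Units.inv_mul, one_smul]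
    _ = _ := by
      rw [h1, smul_smul, smul_smul]
      congr 1
      push_cast
      ring

end derivation

end FA.MW

end
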